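import Fermat.Agent.S48.Eis.Ar.Psi

/-!
# S48-EIS-AR: the congruence for `ℓ B_{1,ψ}`
-/

set_option autoImplicit false

namespace Fermat.Agent.S48.Eis.Ar

variable {Λ : ValuationSubring Qb} {ℓ : ℕ} [Fact ℓ.Prime] {ω : DirichletCharacter Qb ℓ}

/-- P5: `ℓ B_{1,ψ} ≡ ℓ - 1 ≡ -1`. -/
theorem lB_add_one_nu (hΛ : Λ.LiesOverPrime ℓ)
    (hω : ∀ a : ℤ, ω (a : ZMod ℓ) - (a : Qb) ∈ Λ.nonunits) : lB ℓ ω⁻¹ + 1 ∈ Λ.nonunits := by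
  have hℓ : ℓ.Prime := Fact.out
  obtain ⟨m, rfl⟩ : ∃ m, ℓ = m + 1 := ⟨ℓ - 1, by have := hℓ.pos; omega⟩
  have h1 : lB (m + 1) ω⁻¹ + 1 =
      ∑ a ∈ Finset.range m, (((a + 1 : ℕ) : Qb) * ω⁻¹ ((a + 1 : ℕ) : ZMod (m + 1)) - 1)
        + ((m + 1 : ℕ) : Qb) := by
    unfold lB
    rw [Finset.sum_range_succ', Finset.sum_sub_distrib]
    simp
    ring
  rw [h1]
  refine nu_add Λ (nu_sum Λ _ _ ?_) hΛ
  intro a ha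
  rw [Finset.mem_range] at ha
  refine natCast_mul_inv_sub_one_nu hω (a + 1) ?_
  intro hd
  have := Nat.le_of_dvd (Nat.succ_pos a) hd
  omega

/-- P6 -/
theorem lB_ne_zero (hΛ : Λ.LiesOverPrime ℓ)
    (hω : ∀ a : ℤ, ω (a : ZMod ℓ) - (a : Qb) ∈ Λ.nonunits) : lB ℓ ω⁻¹ ≠ 0 := by
  intro h
  have h1 := lB_add_one_nu hΛ hω
  rw [h, zero_add] at h1
  exact nu_one Λ h1

/-- P7: `c = -2 ℓ / (ℓ B_{1,ψ})` lies in the maximal ideal. -/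
theorem const_nu (hΛ : Λ.LiesOverPrime ℓ)
    (hω : ∀ a : ℤ, ω (a : ZMod ℓ) - (a : Qb) ∈ Λ.nonunits) :
    -2 * (ℓ : Qb) / lB ℓ ω⁻¹ ∈ Λ.nonunits := by
  have h1 : lB ℓ ω⁻¹ ∈ Λ := by
    unfold lB
    exact sum_mem fun a _ => mul_mem (natCast_mem Λ a) (char_mem Λ _ _)
  have h2 : lB ℓ ω⁻¹ ∉ Λ.nonunits := by
    intro h
    have h3 := nu_sub Λ (lB_add_one_nu hΛ hω) h
    rw [add_sub_cancel_left] at h3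
    exact nu_one Λ h3
  have h3 : (lB ℓ ω⁻¹)⁻¹ ∈ Λ := inv_mem_of_not_nu Λ h1 h2
  have h4 : -2 * (ℓ : Qb) / lB ℓ ω⁻¹ = (ℓ : Qb) * (((-2 : ℤ) : Qb) * (lB ℓ ω⁻¹)⁻¹) := by
    push_cast
    rw [div_eq_mul_inv]
    ring
  rw [h4]
  exact nu_mul_right Λ hΛ (mul_mem (intCast_mem Λ _) h3)

/-- P8: all higher coefficients lie in the maximal ideal. -/
theorem eCoeff_nu (hΛ : Λ.LiesOverPrime ℓ)
    (hω : ∀ a : ℤ, ω (a : ZMod ℓ) - (a : Qb) ∈ Λ.nonunits) (n : ℕ) (hn : n ≠ 0) :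
    eCoeff ℓ ω⁻¹ n ∈ Λ.nonunits := by
  unfold eCoeff
  rw [if_neg hn]
  exact nu_mul_right Λ (const_nu hΛ hω) (sum_mem fun d _ => char_mem Λ _ _)

end Fermat.Agent.S48.Eis.Ar
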