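import Fermat.Agent.S48.Eis.Ar.Iface

/-!
# S48-EIS-AR: the constant term `1/2 + x/(1-x)` as a finite Fourier sum
-/

set_option autoImplicit false

namespace Fermat.Agent.S48.Eis.Ar

variable {ℓ : ℕ} [Fact ℓ.Prime]

/-- The general identity behind G3. -/
theorem Geom_aux (x : ℂ) (n : ℕ) :
    (x - 1) * ∑ k ∈ Finset.range n, (k : ℂ) * x ^ k + ∑ k ∈ Finset.range n, x ^ k + x ^ n
      = (n : ℂ) * x ^ n + 1 := by
  induction n with
  | zero => simp
  | succ n ih =>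
    rw [Finset.sum_range_succ, Finset.sum_range_succ]
    push_cast
    linear_combination ih

/-- G3 -/
theorem geom_identity {x : ℂ} {n : ℕ} (hn : n ≠ 0) (hx : x ^ n = 1) (hx1 : x ≠ 1) :
    1 / (1 - x) = -(1 / (n : ℂ)) * ∑ k ∈ Finset.range n, (k : ℂ) * x ^ k := by
  have h1 := Geom_aux x n
  have h2 : ∑ k ∈ Finset.range n, x ^ k = 0 := by
    have h3 := mul_geom_sum x n
    rw [hx, sub_self] at h3
    exact (mul_eq_zero.1 h3).resolve_left (sub_ne_zero.2 hx1)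
  rw [h2, hx] at h1
  have h4 : (x - 1) * ∑ k ∈ Finset.range n, (k : ℂ) * x ^ k = (n : ℂ) := by
    linear_combination h1
  have hn' : (n : ℂ) ≠ 0 := by exact_mod_cast hn
  have h5 : (1 - x) ≠ 0 := sub_ne_zero.2 (Ne.symm hx1)
  rw [div_eq_iff h5]
  field_simp
  linear_combination -h4

/-- G4 -/
theorem anCoeff_zero_eq (a : ZMod ℓ) (ha : a ≠ 0) :
    anCoeff ℓ a 0 = -1 / 2 - (1 / (ℓ : ℂ)) *
      ∑ k ∈ Finset.range ℓ, (k : ℂ) * ZMod.stdAddChar (a * (k : ZMod ℓ)) := by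
  have hℓ : ℓ.Prime := Fact.out
  have hx : (ZMod.stdAddChar a : ℂ) ^ ℓ = 1 := by
    rw [← AddChar.map_nsmul_eq_pow, nsmul_eq_mul, ZMod.natCast_self, zero_mul,
      AddChar.map_zero_eq_one]
  have hx1 : (ZMod.stdAddChar a : ℂ) ≠ 1 := by
    intro h
    rw [← AddChar.map_zero_eq_one (ZMod.stdAddChar (N := ℓ))] at h
    exact ha (ZMod.injective_stdAddChar h)
  have h1 := geom_identity hℓ.ne_zero hx hx1
  have h2 : ∀ k : ℕ, (ZMod.stdAddChar (a * (k : ZMod ℓ)) : ℂ) = (ZMod.stdAddChar a : ℂ) ^ k := by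
    intro k
    rw [← AddChar.map_nsmul_eq_pow, nsmul_eq_mul, mul_comm]
  simp only [h2]
  have h5 : (1 - (ZMod.stdAddChar a : ℂ)) ≠ 0 := sub_ne_zero.2 (Ne.symm hx1)
  have h6 : (ZMod.stdAddChar a : ℂ) / (1 - ZMod.stdAddChar a) = -1 + 1 / (1 - ZMod.stdAddChar a) := by
    field_simp
    ring
  unfold anCoeff
  rw [if_pos rfl, h6, h1]
  ring

end Fermat.Agent.S48.Eis.Ar
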