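import Fermat.Agent.S48.Eis.Ar.Gauss
import Fermat.Agent.S48.Eis.Ar.Geom

/-!
# S48-EIS-AR: Gauss sum evaluation of `∑_a χ⁻¹(a) anCoeff ℓ a n`
-/

set_option autoImplicit false

namespace Fermat.Agent.S48.Eis.Ar

variable {ℓ : ℕ} [Fact ℓ.Prime] {χ : DirichletCharacter ℂ ℓ}

/-- G5 -/
theorem sum_anCoeff_zero (hχ : χ ≠ 1) :
    ∑ a : ZMod ℓ, χ⁻¹ a * anCoeff ℓ a 0 = -(gs χ * lB ℓ χ / (ℓ : ℂ)) := by
  have h1 : ∀ a : ZMod ℓ, χ⁻¹ a * anCoeff ℓ a 0 = χ⁻¹ a * (-1 / 2) - (1 / (ℓ : ℂ)) *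
      ∑ k ∈ Finset.range ℓ, (k : ℂ) * (χ⁻¹ a * ZMod.stdAddChar (a * (k : ZMod ℓ))) := by
    intro a
    by_cases ha : a = 0
    · subst ha
      simp [MulChar.map_zero]
    · rw [anCoeff_zero_eq a ha, mul_sub, Finset.mul_sum, Finset.mul_sum, Finset.mul_sum]
      congr 1
      refine Finset.sum_congr rfl fun k _ => ?_
      ring
  simp only [h1]
  rw [Finset.sum_sub_distrib, ← Finset.sum_mul, MulChar.sum_eq_zero_of_ne_one (inv_ne_one.2 hχ),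
    zero_mul, zero_sub, ← Finset.mul_sum, Finset.sum_comm]
  have h2 : ∀ k ∈ Finset.range ℓ,
      ∑ a : ZMod ℓ, (k : ℂ) * (χ⁻¹ a * ZMod.stdAddChar (a * (k : ZMod ℓ)))
        = ((k : ℂ) * χ (k : ZMod ℓ)) * gs χ := by
    intro k _
    rw [← Finset.mul_sum, sum_inv_mul_stdAddChar hχ]
    ring
  rw [Finset.sum_congr rfl h2, ← Finset.sum_mul]
  unfold lB
  ring

/-- G6 -/
theorem sum_anCoeff (hχ : χ ≠ 1) (hodd : χ (-1) = -1) (n : ℕ) (hn : n ≠ 0) :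
    ∑ a : ZMod ℓ, χ⁻¹ a * anCoeff ℓ a n = 2 * gs χ * ∑ r ∈ n.divisors, χ (r : ZMod ℓ) := by
  have h1 : ∀ a : ZMod ℓ, χ⁻¹ a * anCoeff ℓ a n = ∑ r ∈ n.divisors,
      (χ⁻¹ a * ZMod.stdAddChar (a * (r : ZMod ℓ)) -
        χ⁻¹ a * ZMod.stdAddChar (a * (-(r : ZMod ℓ)))) := by
    intro a
    unfold anCoeff
    rw [if_neg hn, Finset.mul_sum]
    refine Finset.sum_congr rfl fun r _ => ?_
    rw [mul_sub, mul_neg]
  simp only [h1]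
  rw [Finset.sum_comm, Finset.mul_sum]
  refine Finset.sum_congr rfl fun r _ => ?_
  rw [Finset.sum_sub_distrib, sum_inv_mul_stdAddChar hχ, sum_inv_mul_stdAddChar hχ]
  have h2 : χ (-(r : ZMod ℓ)) = -χ (r : ZMod ℓ) := by
    rw [← neg_one_mul, map_mul, hodd, neg_one_mul]
  rw [h2]
  ring

/-- G7: the normalised coefficients. -/
theorem kappa_mul_sum (hχ : χ ≠ 1) (hodd : χ (-1) = -1) (hB : lB ℓ χ ≠ 0) (n : ℕ) :
    (-(ℓ : ℂ) / (gs χ * lB ℓ χ)) * ∑ a : ZMod ℓ, χ⁻¹ a * anCoeff ℓ a n = eCoeff ℓ χ n := by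
  have hℓ : ℓ.Prime := Fact.out
  have hℓ0 : (ℓ : ℂ) ≠ 0 := by exact_mod_cast hℓ.ne_zero
  have hg := gs_ne_zero hχ
  unfold eCoeff
  split_ifs with hn
  · subst hn
    rw [sum_anCoeff_zero hχ]
    field_simp
  · rw [sum_anCoeff hχ hodd n hn]
    field_simp

end Fermat.Agent.S48.Eis.Ar
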