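import Fermat.Agent.S48.Eis.Ar.Form

/-!
# S48-EIS-AR: the form `E = κ ∑_a χ⁻¹(a) G_a`: nebentypus
-/

set_option autoImplicit false

open CongruenceSubgroup UpperHalfPlane
open scoped MatrixGroups ModularForm

namespace Fermat.Agent.S48.Eis.Ar

variable {ℓ : ℕ} [Fact ℓ.Prime] (χ : DirichletCharacter ℂ ℓ)
  {G : ZMod ℓ → ModularForm (Gamma1 ℓ) 1} (κ : ℂ)

/-- F4: nebentypus. -/
theorem eisForm_hasNeb
    (hG : ∀ a : ZMod ℓ, a ≠ 0 → ∀ γ : SL(2, ℤ), γ ∈ Gamma0 ℓ →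
      (G a : ℍ → ℂ) ∣[(1 : ℤ)] γ = G (a * ((γ 1 1 : ℤ) : ZMod ℓ))) :
    HasNeb ℓ 1 χ (eisForm χ G κ) := by
  intro γ hγ
  have hmul : ((γ 0 0 : ℤ) : ZMod ℓ) * ((γ 1 1 : ℤ) : ZMod ℓ) = 1 := by
    have hdet := Matrix.det_fin_two γ.1
    rw [γ.2] at hdet
    have hc : ((γ 1 0 : ℤ) : ZMod ℓ) = 0 := Gamma0_mem.1 hγ
    have h := congrArg (Int.cast : ℤ → ZMod ℓ) hdet
    push_cast at h
    have hc' : ((γ.1 1 0 : ℤ) : ZMod ℓ) = 0 := hc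
    rw [hc', mul_zero, sub_zero] at h
    exact h.symm
  generalize hd : ((γ 1 1 : ℤ) : ZMod ℓ) = d at hmul hG ⊢
  have hd0 : d ≠ 0 := by
    rintro rfl
    rw [mul_zero] at hmul
    exact zero_ne_one hmul
  have hdu : IsUnit d := hd0.isUnit
  have hχd : χ d * χ⁻¹ d = 1 := by
    rw [← MulChar.mul_apply, mul_inv_cancel, MulChar.one_apply hdu]
  rw [eisForm_coe, slash_smul_sum]
  have h1 : ∀ a : ZMod ℓ, χ⁻¹ a • ((G a : ℍ → ℂ) ∣[(1 : ℤ)] γ) =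
      (χ d * χ⁻¹ (a * d)) • (G (a * d) : ℍ → ℂ) := by
    intro a
    by_cases ha : a = 0
    · subst ha
      rw [zero_mul, MulChar.map_zero, mul_zero, zero_smul, zero_smul]
    · have h2 := hG a ha γ hγ
      rw [hd] at h2
      rw [h2, map_mul]
      congr 1
      linear_combination (-(χ⁻¹ a)) * hχd
  simp_rw [h1]
  have h3 : ∑ x : ZMod ℓ, (χ d * χ⁻¹ (x * d)) • (G (x * d) : ℍ → ℂ) =
      ∑ b : ZMod ℓ, (χ d * χ⁻¹ b) • (G b : ℍ → ℂ) :=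
    Equiv.sum_comp (Equiv.mulRight₀ d hd0) (fun b => (χ d * χ⁻¹ b) • (G b : ℍ → ℂ))
  rw [h3]
  simp_rw [mul_smul]
  rw [← Finset.smul_sum, smul_comm]

end Fermat.Agent.S48.Eis.Ar
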