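import Fermat.Agent.S48.Eis.Ar.Form

/-!
# S48-EIS-AR: the form `E = κ ∑_a χ⁻¹(a) G_a`: `q`-expansion
-/

set_option autoImplicit false

open CongruenceSubgroup UpperHalfPlane
open scoped MatrixGroups ModularForm

namespace Fermat.Agent.S48.Eis.Ar

variable {ℓ : ℕ} [Fact ℓ.Prime] (χ : DirichletCharacter ℂ ℓ)
  {G : ZMod ℓ → ModularForm (Gamma1 ℓ) 1} (κ : ℂ)

/-- F5 -/
theorem eisForm_hasSum
    (hG : ∀ a : ZMod ℓ, a ≠ 0 → ∀ τ : ℍ,
      HasSum (fun n : ℕ => anCoeff ℓ a n • Function.Periodic.qParam 1 τ ^ n) (G a τ)) (τ : ℍ) :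
    HasSum (fun n : ℕ => (κ * ∑ a : ZMod ℓ, χ⁻¹ a * anCoeff ℓ a n) •
      Function.Periodic.qParam 1 τ ^ n) (eisForm χ G κ τ) := by
  have h1 : ∀ a : ZMod ℓ, HasSum (fun n : ℕ => (χ⁻¹ a * anCoeff ℓ a n) •
      Function.Periodic.qParam 1 τ ^ n) (χ⁻¹ a * G a τ) := by
    intro a
    by_cases ha : a = 0
    · subst ha
      simp only [MulChar.map_zero, zero_mul, zero_smul]
      exact hasSum_zero
    · have h2 := (hG a ha τ).mul_left (χ⁻¹ a)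
      simp only [smul_eq_mul] at h2 ⊢
      simpa only [mul_assoc] using h2
  have h3 := (hasSum_sum (s := Finset.univ) fun a _ => h1 a).mul_left κ
  rw [eisForm_apply]
  simp only [smul_eq_mul] at h3 ⊢
  have h4 : (fun n : ℕ => κ * (∑ a : ZMod ℓ, χ⁻¹ a * anCoeff ℓ a n) *
      Function.Periodic.qParam 1 τ ^ n) = fun i : ℕ => κ * ∑ x : ZMod ℓ, χ⁻¹ x * anCoeff ℓ x i *
        Function.Periodic.qParam 1 τ ^ i := by
    funext n
    rw [mul_assoc, Finset.sum_mul]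
  rw [h4]
  exact h3

/-- F6 -/
theorem eisForm_qCoeff
    (hG : ∀ a : ZMod ℓ, a ≠ 0 → ∀ τ : ℍ,
      HasSum (fun n : ℕ => anCoeff ℓ a n • Function.Periodic.qParam 1 τ ^ n) (G a τ)) (n : ℕ) :
    ModularFormClass.qCoeff (eisForm χ G κ) n = κ * ∑ a : ZMod ℓ, χ⁻¹ a * anCoeff ℓ a n := by
  have h1 : (1 : ℝ) ∈ (Gamma1 ℓ : Subgroup (GL (Fin 2) ℝ)).strictPeriods := by
    rw [CongruenceSubgroup.strictPeriods_Gamma1]
    exact AddSubgroup.mem_zmultiples 1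
  exact (ModularFormClass.qExpansion_coeff_unique one_pos h1 (f := eisForm χ G κ)
    (eisForm_hasSum χ κ hG) n).symm

end Fermat.Agent.S48.Eis.Ar
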