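import Fermat.Agent.S48.Eis.Ar.Teich
import Fermat.Agent.S48.Eis.Ar.Bern
import Fermat.Agent.S48.Eis.Ar.GaussSum
import Fermat.Agent.S48.Eis.Ar.Neb
import Fermat.Agent.S48.Eis.Ar.QExp

/-!
# S48-EIS-AR: `AnStatement → EisStatement`
-/

set_option autoImplicit false

open CongruenceSubgroup UpperHalfPlane
open scoped MatrixGroups ModularForm

namespace Fermat.Agent.S48.Eis.Ar

/-- **The arithmetic half of S48-EIS.** -/
theorem eis_of_an (hAn : AnStatement) : EisStatement := by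
  intro ι ℓ hℓ h5 Λ hΛ
  have : Fact ℓ.Prime := ⟨hℓ⟩
  obtain ⟨ω, hω⟩ := exists_teich hΛ
  obtain ⟨G, hG1, hG2⟩ := hAn ℓ
  have hodd : (ω⁻¹.ringHomComp ι) (-1) = -1 := by
    rw [MulChar.ringHomComp_apply, teich_inv_neg_one hΛ (by omega) hω]
    simp
  have hχ : ω⁻¹.ringHomComp ι ≠ 1 := by
    intro h
    rw [h, MulChar.one_apply (by simp)] at hodd
    norm_num at hodd
  have hB : lB ℓ (ω⁻¹.ringHomComp ι) ≠ 0 := by
    rw [← map_lB]
    exact (map_ne_zero ι).2 (lB_ne_zero hΛ hω)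
  refine ⟨eisForm (ω⁻¹.ringHomComp ι) G
      (-(ℓ : ℂ) / (gs (ω⁻¹.ringHomComp ι) * lB ℓ (ω⁻¹.ringHomComp ι))), ω⁻¹, eCoeff ℓ ω⁻¹,
    ?_, ?_, ?_, ?_, ?_⟩
  · exact eisForm_hasNeb (ω⁻¹.ringHomComp ι) _ hG1
  · intro n
    rw [eisForm_qCoeff _ _ hG2, kappa_mul_sum hχ hodd hB, map_eCoeff]
  · simp [eCoeff]
  · intro n hn
    exact eCoeff_nu hΛ hω n hn
  · intro p hp
    exact natCast_mul_inv_sub_one_nu hω p hp

end Fermat.Agent.S48.Eis.Ar
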