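import Fermat.Agent.S48.Iface

/-!
# S48-EIS: interface between the analytic half and the arithmetic half

`AnStatement` is the export of the analytic half (weight one Eisenstein series
`G_a = K(a/N; τ) / (-2πi)` attached to the vectors `(0, a) / N`): modularity on `Γ₁(N)`, action of
`Γ₀(N)`, `q`-expansion.  The arithmetic half (`Fermat/Agent/S48/Eis/Ar/*.lean`) proves
`AnStatement → EisStatement`.
-/

set_option autoImplicit false

open CongruenceSubgroup UpperHalfPlane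
open scoped MatrixGroups ModularForm

namespace Fermat.Agent.S48.Eis.Ar

/-- The `q`-expansion coefficients of `G_a`; `e = ZMod.stdAddChar`, `e a = exp (2πi a / N)`. -/
noncomputable def anCoeff (N : ℕ) [NeZero N] (a : ZMod N) (n : ℕ) : ℂ :=
  if n = 0 then 1 / 2 + ZMod.stdAddChar a / (1 - ZMod.stdAddChar a)
  else ∑ r ∈ n.divisors,
    (ZMod.stdAddChar (a * (r : ZMod N)) - ZMod.stdAddChar (-(a * (r : ZMod N))))

/-- **Export of the analytic half.** -/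
def AnStatement : Prop :=
  ∀ (N : ℕ) [NeZero N], ∃ G : ZMod N → ModularForm (Gamma1 N) 1,
    (∀ a : ZMod N, a ≠ 0 → ∀ γ : SL(2, ℤ), γ ∈ Gamma0 N →
      (G a : ℍ → ℂ) ∣[(1 : ℤ)] γ = G (a * ((γ 1 1 : ℤ) : ZMod N))) ∧
    (∀ a : ZMod N, a ≠ 0 → ∀ τ : ℍ,
      HasSum (fun n : ℕ => anCoeff N a n • Function.Periodic.qParam 1 τ ^ n) (G a τ))

/-- `ℓ · B_{1,ψ} = ∑_{0 ≤ a < ℓ} a ψ(a)`. -/
noncomputable def lB {R : Type} [CommRing R] (ℓ : ℕ) (ψ : DirichletCharacter R ℓ) : R :=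
  ∑ a ∈ Finset.range ℓ, (a : R) * ψ (a : ZMod ℓ)

/-- The coefficients of `E = 1 - (2 / B_{1,ψ}) ∑ (∑_{d ∣ n} ψ d) q ^ n`. -/
noncomputable def eCoeff {R : Type} [Field R] (ℓ : ℕ) (ψ : DirichletCharacter R ℓ) (n : ℕ) : R :=
  if n = 0 then 1 else (-2 * (ℓ : R) / lB ℓ ψ) * ∑ d ∈ n.divisors, ψ (d : ZMod ℓ)

end Fermat.Agent.S48.Eis.Ar
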