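import Fermat.Agent.S48.Eis.Ar.Nu

/-!
# S48-EIS-AR: the maximal ideal `Λ.nonunits` of a place of `ℚ̄` (small API, part 2)
-/

set_option autoImplicit false

namespace Fermat.Agent.S48.Eis.Ar

variable (Λ : ValuationSubring Qb)

/-- B12 -/
theorem intCast_mem (n : ℤ) : (n : Qb) ∈ Λ := by
  exact _root_.intCast_mem Λ n

/-- B13 -/
theorem natCast_mem (n : ℕ) : (n : Qb) ∈ Λ := by
  exact _root_.natCast_mem Λ n

/-- B14: roots of unity are units of `Λ`. -/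
theorem val_eq_one_of_pow {x : Qb} {n : ℕ} (hn : n ≠ 0) (hx : x ^ n = 1) : Λ.valuation x = 1 := by
  have h1 : Λ.valuation x ^ n = 1 := by rw [← map_pow, hx, map_one]
  exact (pow_eq_one_iff.1 h1).resolve_right hn

/-- B15 -/
theorem mem_of_pow {x : Qb} {n : ℕ} (hn : n ≠ 0) (hx : x ^ n = 1) : x ∈ Λ := by
  exact (Λ.valuation_le_one_iff x).1 (val_eq_one_of_pow Λ hn hx).le

/-- B16: an element of `Λ` which is not in the maximal ideal has its inverse in `Λ`. -/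
theorem inv_mem_of_not_nu {x : Qb} (hx : x ∈ Λ) (hx' : x ∉ Λ.nonunits) : x⁻¹ ∈ Λ := by
  have h1 : Λ.valuation x ≤ 1 := (Λ.valuation_le_one_iff x).2 hx
  have h2 : ¬ Λ.valuation x < 1 := fun h => hx' (Λ.mem_nonunits_iff.2 h)
  have h3 : Λ.valuation x = 1 := le_antisymm h1 (not_lt.1 h2)
  refine (Λ.valuation_le_one_iff _).1 ?_
  rw [map_inv₀, h3, inv_one]

variable {Λ}

/-- B17 -/
theorem intCast_nu_iff {ℓ : ℕ} (hℓ : ℓ.Prime) (hΛ : Λ.LiesOverPrime ℓ) (n : ℤ) :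
    (n : Qb) ∈ Λ.nonunits ↔ (ℓ : ℤ) ∣ n := by
  constructor
  · intro hn
    by_contra hd
    have hcop : IsCoprime (ℓ : ℤ) n :=
      (Prime.coprime_iff_not_dvd (Nat.prime_iff_prime_int.1 hℓ)).2 hd
    obtain ⟨u, v, huv⟩ := hcop
    have h1 : ((u : Qb) * (ℓ : Qb) + (v : Qb) * (n : Qb)) = 1 := by
      have := congrArg (fun z : ℤ => (z : Qb)) huv
      push_cast at this
      exact this
    have h2 : ((u : Qb) * (ℓ : Qb) + (v : Qb) * (n : Qb)) ∈ Λ.nonunits :=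
      nu_add Λ (nu_mul_left Λ (intCast_mem Λ u) hΛ) (nu_mul_left Λ (intCast_mem Λ v) hn)
    rw [h1] at h2
    exact nu_one Λ h2
  · rintro ⟨k, rfl⟩
    push_cast
    exact nu_mul_right Λ hΛ (intCast_mem Λ k)

/-- B18: congruent integers. -/
theorem intCast_sub_nu {ℓ : ℕ} (hΛ : Λ.LiesOverPrime ℓ) {a b : ℤ}
    (h : (a : ZMod ℓ) = (b : ZMod ℓ)) : (a : Qb) - (b : Qb) ∈ Λ.nonunits := by
  have h1 : (ℓ : ℤ) ∣ a - b := by
    rw [← ZMod.intCast_zmod_eq_zero_iff_dvd]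
    push_cast
    rw [h, sub_self]
  obtain ⟨k, hk⟩ := h1
  have h2 : (a : Qb) - (b : Qb) = (ℓ : Qb) * (k : Qb) := by
    have := congrArg (fun z : ℤ => (z : Qb)) hk
    push_cast at this
    exact this
  rw [h2]
  exact nu_mul_right Λ hΛ (intCast_mem Λ k)

/-- B19: values of a Dirichlet character lie in `Λ`. -/
theorem char_mem (Λ : ValuationSubring Qb) {ℓ : ℕ} [NeZero ℓ] (ψ : DirichletCharacter Qb ℓ)
    (x : ZMod ℓ) : ψ x ∈ Λ := by
  by_cases hx : IsUnit x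
  · obtain ⟨u, rfl⟩ := hx
    have h1 : ψ (u : ZMod ℓ) ^ Fintype.card (ZMod ℓ)ˣ = 1 := by
      rw [← map_pow, ← Units.val_pow_eq_pow_val, pow_card_eq_one, Units.val_one, map_one]
    exact mem_of_pow Λ Fintype.card_ne_zero h1
  · rw [MulChar.map_nonunit ψ hx]
    exact Λ.zero_mem

end Fermat.Agent.S48.Eis.Ar
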