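import Fermat.Agent.S48.Eis.Ar.Iface

/-!
# S48-EIS-AR: the form `E = κ ∑_a χ⁻¹(a) G_a`
-/

set_option autoImplicit false

open CongruenceSubgroup UpperHalfPlane
open scoped MatrixGroups ModularForm

namespace Fermat.Agent.S48.Eis.Ar

variable {ℓ : ℕ} [Fact ℓ.Prime] (χ : DirichletCharacter ℂ ℓ)
  (G : ZMod ℓ → ModularForm (Gamma1 ℓ) 1) (κ : ℂ)

/-- `E = κ ∑_a χ⁻¹(a) G_a`. -/
noncomputable def eisForm : ModularForm (Gamma1 ℓ) 1 := κ • ∑ a : ZMod ℓ, χ⁻¹ a • G a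

theorem Form_eisForm_coe :
    (eisForm χ G κ : ℍ → ℂ) = κ • ∑ a : ZMod ℓ, χ⁻¹ a • (G a : ℍ → ℂ) := by
  unfold eisForm
  rw [FunLike.coe_smul]
  congr 1
  have h : ∀ s : Finset (ZMod ℓ), ((∑ a ∈ s, χ⁻¹ a • G a : ModularForm (Gamma1 ℓ) 1) : ℍ → ℂ) =
      ∑ a ∈ s, χ⁻¹ a • (G a : ℍ → ℂ) := by
    intro s
    classical
    induction s using Finset.induction_on with
    | empty => simp
    | insert a t ha ih =>
      rw [Finset.sum_insert ha, Finset.sum_insert ha, FunLike.coe_add, ih, FunLike.coe_smul]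
  exact h Finset.univ

/-- F1 -/
theorem eisForm_apply (τ : ℍ) : eisForm χ G κ τ = κ * ∑ a : ZMod ℓ, χ⁻¹ a * G a τ := by
  have h := congrFun (Form_eisForm_coe χ G κ) τ
  rw [h]
  simp only [Pi.smul_apply, Finset.sum_apply, smul_eq_mul]

/-- F2 -/
theorem eisForm_coe :
    (eisForm χ G κ : ℍ → ℂ) = κ • ∑ a : ZMod ℓ, χ⁻¹ a • (G a : ℍ → ℂ) := by
  exact Form_eisForm_coe χ G κ

/-- F3: slash is linear (finite sums, complex scalars) for `γ : SL(2, ℤ)`. -/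
theorem slash_smul_sum (f : ZMod ℓ → ℍ → ℂ) (c : ZMod ℓ → ℂ) (γ : SL(2, ℤ)) :
    (κ • ∑ a : ZMod ℓ, c a • f a) ∣[(1 : ℤ)] γ = κ • ∑ a : ZMod ℓ, c a • (f a ∣[(1 : ℤ)] γ) := by
  rw [ModularForm.SL_smul_slash, SlashAction.sum_slash]
  congr 1
  exact Finset.sum_congr rfl fun a _ => ModularForm.SL_smul_slash _ _ _ _

end Fermat.Agent.S48.Eis.Ar
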