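import Fermat.Agent.S48.Eis.Ar.Iface

/-!
# S48-EIS-AR: the Gauss sum
-/

set_option autoImplicit false

namespace Fermat.Agent.S48.Eis.Ar

variable {ℓ : ℕ} [Fact ℓ.Prime] (χ : DirichletCharacter ℂ ℓ)

/-- The Gauss sum `g(χ⁻¹) = ∑_a χ⁻¹(a) e(a)`. -/
noncomputable def gs : ℂ := gaussSum χ⁻¹ (ZMod.stdAddChar (N := ℓ))

variable {χ}

/-- G1 -/
theorem gs_ne_zero (hχ : χ ≠ 1) : gs χ ≠ 0 := by
  have hℓ : ℓ.Prime := Fact.out
  refine gaussSum_ne_zero_of_nontrivial ?_ (inv_ne_one.2 hχ) (ZMod.isPrimitive_stdAddChar ℓ)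
  rw [ZMod.card]
  exact_mod_cast hℓ.ne_zero

/-- G2 -/
theorem sum_inv_mul_stdAddChar (hχ : χ ≠ 1) (k : ZMod ℓ) :
    ∑ a : ZMod ℓ, χ⁻¹ a * ZMod.stdAddChar (a * k) = χ k * gs χ := by
  by_cases hk : k = 0
  · subst hk
    simp only [mul_zero, AddChar.map_zero_eq_one, mul_one, MulChar.map_zero, zero_mul]
    exact MulChar.sum_eq_zero_of_ne_one (inv_ne_one.2 hχ)
  · have h1 := gaussSum_mulShift_eq χ⁻¹ (ZMod.stdAddChar (N := ℓ)) (Units.mk0 k hk)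
    rw [inv_inv] at h1
    have h2 : gaussSum χ⁻¹ ((ZMod.stdAddChar (N := ℓ)).mulShift ((Units.mk0 k hk : (ZMod ℓ)ˣ) : ZMod ℓ))
        = ∑ a : ZMod ℓ, χ⁻¹ a * ZMod.stdAddChar (a * k) := by
      unfold gaussSum
      refine Finset.sum_congr rfl fun a _ => ?_
      rw [AddChar.mulShift_apply, Units.val_mk0, mul_comm k a]
    rw [← h2, h1, Units.val_mk0]
    rfl

end Fermat.Agent.S48.Eis.Ar
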