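import Fermat.Agent.S48.Eis.Ar.Iface

/-!
# S48-EIS-AR: the maximal ideal `Λ.nonunits` of a place of `ℚ̄` (small API, part 1)
-/

set_option autoImplicit false

namespace Fermat.Agent.S48.Eis.Ar

variable (Λ : ValuationSubring Qb)

/-- B1 -/
theorem nu_iff {x : Qb} : x ∈ Λ.nonunits ↔ Λ.valuation x < 1 := by
  exact Λ.mem_nonunits_iff

/-- B2 -/
theorem nu_mem {x : Qb} (hx : x ∈ Λ.nonunits) : x ∈ Λ := by
  exact Λ.nonunits_subset hx

/-- B3 -/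
theorem nu_zero : (0 : Qb) ∈ Λ.nonunits := by
  exact Λ.nonunits.zero_mem

/-- B4 -/
theorem nu_one : (1 : Qb) ∉ Λ.nonunits := by
  rw [Λ.mem_nonunits_iff, map_one]
  exact lt_irrefl _

/-- B5 -/
theorem nu_add {x y : Qb} (hx : x ∈ Λ.nonunits) (hy : y ∈ Λ.nonunits) : x + y ∈ Λ.nonunits := by
  exact Λ.nonunits.add_mem hx hy

/-- B6 -/
theorem nu_neg {x : Qb} (hx : x ∈ Λ.nonunits) : -x ∈ Λ.nonunits := by
  exact Λ.nonunits.neg_mem hx

/-- B7 -/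
theorem nu_sub {x y : Qb} (hx : x ∈ Λ.nonunits) (hy : y ∈ Λ.nonunits) : x - y ∈ Λ.nonunits := by
  exact Λ.nonunits.sub_mem hx hy

/-- B8 -/
theorem nu_mul_left {x y : Qb} (hx : x ∈ Λ) (hy : y ∈ Λ.nonunits) : x * y ∈ Λ.nonunits := by
  rw [Λ.mem_nonunits_iff] at hy ⊢
  rw [map_mul]
  have h1 : Λ.valuation x ≤ 1 := (Λ.valuation_le_one_iff x).2 hx
  calc Λ.valuation x * Λ.valuation y ≤ 1 * Λ.valuation y := mul_le_mul_left h1 _
    _ = Λ.valuation y := one_mul _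
    _ < 1 := hy

/-- B9 -/
theorem nu_mul_right {x y : Qb} (hx : x ∈ Λ.nonunits) (hy : y ∈ Λ) : x * y ∈ Λ.nonunits := by
  rw [mul_comm]
  exact nu_mul_left Λ hy hx

/-- B10 -/
theorem nu_sum {ι : Type} (s : Finset ι) (f : ι → Qb) (h : ∀ i ∈ s, f i ∈ Λ.nonunits) :
    ∑ i ∈ s, f i ∈ Λ.nonunits := by
  exact Λ.nonunits.sum_mem h

/-- B11: the maximal ideal is prime (finite products). -/
theorem nu_prod {ι : Type} (s : Finset ι) (f : ι → Qb) (h : ∀ i ∈ s, f i ∈ Λ)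
    (hp : ∏ i ∈ s, f i ∈ Λ.nonunits) : ∃ i ∈ s, f i ∈ Λ.nonunits := by
  by_contra hcon
  push Not at hcon
  have h1 : ∀ i ∈ s, Λ.valuation (f i) = 1 := by
    intro i hi
    have h2 : Λ.valuation (f i) ≤ 1 := (Λ.valuation_le_one_iff _).2 (h i hi)
    have h3 : ¬ Λ.valuation (f i) < 1 := fun h4 => hcon i hi (Λ.mem_nonunits_iff.2 h4)
    exact le_antisymm h2 (not_lt.1 h3)
  rw [Λ.mem_nonunits_iff, map_prod, Finset.prod_eq_one h1] at hp
  exact lt_irrefl _ hp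

end Fermat.Agent.S48.Eis.Ar
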