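import Fermat.Agent.S48.Eis.Ar.Basic

/-!
# S48-EIS-AR: properties of `ψ = ω⁻¹`
-/

set_option autoImplicit false

namespace Fermat.Agent.S48.Eis.Ar

variable {Λ : ValuationSubring Qb} {ℓ : ℕ} [Fact ℓ.Prime] {ω : DirichletCharacter Qb ℓ}

/-- P1: `a ψ(a) ≡ 1` for `ℓ ∤ a`. -/
theorem mul_inv_sub_one_nu (hω : ∀ a : ℤ, ω (a : ZMod ℓ) - (a : Qb) ∈ Λ.nonunits)
    (a : ℤ) (ha : ¬ (ℓ : ℤ) ∣ a) : (a : Qb) * ω⁻¹ (a : ZMod ℓ) - 1 ∈ Λ.nonunits := by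
  have hne : ((a : ℤ) : ZMod ℓ) ≠ 0 := by
    rw [Ne, ZMod.intCast_zmod_eq_zero_iff_dvd]
    exact ha
  have hu : IsUnit ((a : ℤ) : ZMod ℓ) := isUnit_iff_ne_zero.2 hne
  have h1 : ω (a : ZMod ℓ) * ω⁻¹ (a : ZMod ℓ) = 1 := by
    rw [← MulChar.mul_apply, mul_inv_cancel, MulChar.one_apply hu]
  have h2 : (a : Qb) * ω⁻¹ (a : ZMod ℓ) - 1 =
      -((ω (a : ZMod ℓ) - (a : Qb)) * ω⁻¹ (a : ZMod ℓ)) := by
    rw [sub_mul, h1]
    ring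
  rw [h2]
  exact nu_neg Λ (nu_mul_right Λ (hω a) (char_mem Λ _ _))

/-- P2: the last clause of `EisStatement`. -/
theorem natCast_mul_inv_sub_one_nu (hω : ∀ a : ℤ, ω (a : ZMod ℓ) - (a : Qb) ∈ Λ.nonunits)
    (p : ℕ) (hp : ¬ ℓ ∣ p) : (p : Qb) * ω⁻¹ (p : ZMod ℓ) - 1 ∈ Λ.nonunits := by
  have h := mul_inv_sub_one_nu hω (p : ℤ) (by exact_mod_cast hp)
  push_cast at h
  exact h

/-- P3: `ω` is odd (`ℓ` odd). -/
theorem teich_neg_one (hΛ : Λ.LiesOverPrime ℓ) (h2 : ℓ ≠ 2)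
    (hω : ∀ a : ℤ, ω (a : ZMod ℓ) - (a : Qb) ∈ Λ.nonunits) : ω (-1) = -1 := by
  have h1 : ω (-1) * ω (-1) = 1 := by
    rw [← map_mul, neg_mul_neg, one_mul, map_one]
  rcases mul_self_eq_one_iff.1 h1 with h | h
  · exfalso
    have h6 := hω (-1)
    push_cast at h6
    rw [h] at h6
    have h3 : ((2 : ℤ) : Qb) ∈ Λ.nonunits := by
      have : ((2 : ℤ) : Qb) = 1 - -1 := by norm_num
      rw [this]
      exact h6
    have h4 := (intCast_nu_iff (Fact.out : ℓ.Prime) hΛ 2).1 h3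
    have h5 : ℓ ∣ 2 := by exact_mod_cast h4
    exact h2 ((Nat.prime_dvd_prime_iff_eq (Fact.out : ℓ.Prime) Nat.prime_two).1 h5)
  · exact h

/-- P4: `ψ = ω⁻¹` is odd. -/
theorem teich_inv_neg_one (hΛ : Λ.LiesOverPrime ℓ) (h2 : ℓ ≠ 2)
    (hω : ∀ a : ℤ, ω (a : ZMod ℓ) - (a : Qb) ∈ Λ.nonunits) : ω⁻¹ (-1) = -1 := by
  have h1 : ω (-1) * ω⁻¹ (-1) = 1 := by
    rw [← MulChar.mul_apply, mul_inv_cancel, MulChar.one_apply (by simp)]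
  rw [teich_neg_one hΛ h2 hω] at h1
  linear_combination -h1

/-- P9: compatibility of `lB`, `eCoeff` with a ring homomorphism. -/
theorem map_lB (ι : Qb →+* ℂ) (ψ : DirichletCharacter Qb ℓ) :
    ι (lB ℓ ψ) = lB ℓ (ψ.ringHomComp ι) := by
  simp [lB, map_sum, MulChar.ringHomComp_apply]

/-- P10 -/
theorem map_eCoeff (ι : Qb →+* ℂ) (ψ : DirichletCharacter Qb ℓ) (n : ℕ) :
    ι (eCoeff ℓ ψ n) = eCoeff ℓ (ψ.ringHomComp ι) n := by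
  unfold eCoeff
  split_ifs with h
  · simp
  · rw [map_mul, map_div₀, map_lB]
    simp [map_sum, MulChar.ringHomComp_apply, map_ofNat]

end Fermat.Agent.S48.Eis.Ar
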