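import Fermat.Agent.S48.Eis.Ar.Basic

/-!
# S48-EIS-AR: integers prime to `ℓ` are congruent to roots of unity
-/

set_option autoImplicit false

namespace Fermat.Agent.S48.Eis.Ar

variable {Λ : ValuationSubring Qb} {ℓ : ℕ}

/-- The maximal ideal is prime (multiset products). -/
theorem Root_nu_multiset_prod (Λ : ValuationSubring Qb) (s : Multiset Qb) (h : ∀ x ∈ s, x ∈ Λ)
    (hp : s.prod ∈ Λ.nonunits) : ∃ x ∈ s, x ∈ Λ.nonunits := by
  induction s using Multiset.induction_on with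
  | empty =>
    rw [Multiset.prod_zero] at hp
    exact absurd hp (nu_one Λ)
  | cons a s ih =>
    rw [Multiset.prod_cons] at hp
    by_cases ha : a ∈ Λ.nonunits
    · exact ⟨a, Multiset.mem_cons_self a s, ha⟩
    · have ha' : a ∈ Λ := h a (Multiset.mem_cons_self a s)
      have hinv : a⁻¹ ∈ Λ := inv_mem_of_not_nu Λ ha' ha
      have ha0 : a ≠ 0 := by
        rintro rfl
        exact ha (nu_zero Λ)
      have h2 : s.prod ∈ Λ.nonunits := by
        have h3 := nu_mul_left Λ hinv hp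
        rwa [← mul_assoc, inv_mul_cancel₀ ha0, one_mul] at h3
      obtain ⟨x, hx, hx'⟩ := ih (fun x hx => h x (Multiset.mem_cons_of_mem hx)) h2
      exact ⟨x, Multiset.mem_cons_of_mem hx, hx'⟩

/-- T1: every integer prime to `ℓ` is congruent mod `Λ` to an `(ℓ-1)`-th root of unity. -/
theorem exists_root_congr (hℓ : ℓ.Prime) (hΛ : Λ.LiesOverPrime ℓ) (g : ℤ) (hg : ¬ (ℓ : ℤ) ∣ g) :
    ∃ ζ : Qb, ζ ^ (ℓ - 1) = 1 ∧ (g : Qb) - ζ ∈ Λ.nonunits := by
  have hpos : ℓ - 1 ≠ 0 := by have := hℓ.two_le; omega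
  have hmon : (Polynomial.X ^ (ℓ - 1) - 1 : Polynomial Qb).Monic := by
    have := Polynomial.monic_X_pow_sub_C (1 : Qb) hpos
    simpa using this
  have hne : (Polynomial.X ^ (ℓ - 1) - 1 : Polynomial Qb) ≠ 0 := hmon.ne_zero
  have hev := (IsAlgClosed.splits (Polynomial.X ^ (ℓ - 1) - 1 : Polynomial Qb)).eval_eq_prod_roots_of_monic
    hmon (g : Qb)
  have hroot : ∀ r ∈ (Polynomial.X ^ (ℓ - 1) - 1 : Polynomial Qb).roots, r ^ (ℓ - 1) = 1 := by
    intro r hr
    have h1 := (Polynomial.mem_roots hne).1 hr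
    simp only [Polynomial.IsRoot.def, Polynomial.eval_sub, Polynomial.eval_pow, Polynomial.eval_X,
      Polynomial.eval_one] at h1
    exact sub_eq_zero.1 h1
  have hfermat : ((g ^ (ℓ - 1) : ℤ) : ZMod ℓ) = ((1 : ℤ) : ZMod ℓ) := by
    have : Fact ℓ.Prime := ⟨hℓ⟩
    push_cast
    refine ZMod.pow_card_sub_one_eq_one ?_
    rw [Ne, ZMod.intCast_zmod_eq_zero_iff_dvd]
    exact hg
  have hnu : (g : Qb) ^ (ℓ - 1) - 1 ∈ Λ.nonunits := by
    have := intCast_sub_nu hΛ hfermat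
    push_cast at this
    exact this
  have hev' : (g : Qb) ^ (ℓ - 1) - 1 =
      (((Polynomial.X ^ (ℓ - 1) - 1 : Polynomial Qb).roots).map fun a => (g : Qb) - a).prod := by
    rw [← hev]
    simp
  rw [hev'] at hnu
  obtain ⟨x, hx, hx'⟩ := Root_nu_multiset_prod Λ _ (by
    intro x hx
    obtain ⟨r, hr, rfl⟩ := Multiset.mem_map.1 hx
    exact sub_mem (intCast_mem Λ g) (mem_of_pow Λ hpos (hroot r hr))) hnu
  obtain ⟨r, hr, rfl⟩ := Multiset.mem_map.1 hx
  exact ⟨r, hroot r hr, hx'⟩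

end Fermat.Agent.S48.Eis.Ar
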