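import Fermat.Agent.S48.Eis.Ar.Root

/-!
# S48-EIS-AR: the Teichmüller character with respect to a place `Λ ∣ ℓ` of `ℚ̄`
-/

set_option autoImplicit false

namespace Fermat.Agent.S48.Eis.Ar

variable {Λ : ValuationSubring Qb} {ℓ : ℕ}

/-- Congruences can be raised to powers. -/
theorem Teich_pow_sub_pow_nu (Λ : ValuationSubring Qb) {x y : Qb} (hx : x ∈ Λ) (hy : y ∈ Λ)
    (h : x - y ∈ Λ.nonunits) (k : ℕ) : x ^ k - y ^ k ∈ Λ.nonunits := by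
  induction k with
  | zero =>
    simp only [pow_zero, sub_self]
    exact nu_zero Λ
  | succ k ih =>
    have h1 : x ^ (k + 1) - y ^ (k + 1) = x * (x ^ k - y ^ k) + (x - y) * y ^ k := by ring
    rw [h1]
    exact nu_add Λ (nu_mul_left Λ hx ih) (nu_mul_right Λ h (pow_mem hy k))

/-- T2: the Teichmüller character on units. -/
theorem exists_teich_units [Fact ℓ.Prime] (hΛ : Λ.LiesOverPrime ℓ) :
    ∃ w : (ZMod ℓ)ˣ →* Qbˣ, ∀ (u : (ZMod ℓ)ˣ) (a : ℤ), (a : ZMod ℓ) = u →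
      ((w u : Qbˣ) : Qb) - (a : Qb) ∈ Λ.nonunits := by
  have hℓ : ℓ.Prime := Fact.out
  have hpos : ℓ - 1 ≠ 0 := by have := hℓ.two_le; omega
  obtain ⟨g, hg⟩ := IsCyclic.exists_generator (α := (ZMod ℓ)ˣ)
  have hg0 : ¬ (ℓ : ℤ) ∣ (((g : ZMod ℓ).val : ℕ) : ℤ) := by
    rw [← ZMod.intCast_zmod_eq_zero_iff_dvd]
    push_cast
    rw [ZMod.natCast_zmod_val]
    exact g.ne_zero
  obtain ⟨ζ, hζ, hζg⟩ := exists_root_congr hℓ hΛ _ hg0
  have hζ0 : ζ ≠ 0 := by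
    rintro rfl
    rw [zero_pow hpos] at hζ
    exact zero_ne_one hζ
  have hord : orderOf (Units.mk0 ζ hζ0) ∣ orderOf g := by
    rw [orderOf_eq_card_of_forall_mem_zpowers hg, Nat.card_eq_fintype_card, ZMod.card_units]
    refine orderOf_dvd_of_pow_eq_one ?_
    ext
    simpa using hζ
  refine ⟨monoidHomOfForallMemZpowers hg hord, ?_⟩
  intro u a hau
  obtain ⟨k, rfl⟩ := (mem_powers_iff_mem_zpowers.2 (hg u) : u ∈ Submonoid.powers g)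
  have h1 : ((monoidHomOfForallMemZpowers hg hord (g ^ k) : Qbˣ) : Qb) = ζ ^ k := by
    rw [map_pow, monoidHomOfForallMemZpowers_apply_gen]
    simp
  rw [h1]
  have hζΛ : ζ ∈ Λ := mem_of_pow Λ hpos hζ
  have h2 : ζ ^ k - ((((g : ZMod ℓ).val : ℕ) : ℤ) : Qb) ^ k ∈ Λ.nonunits := by
    refine Teich_pow_sub_pow_nu Λ hζΛ (intCast_mem Λ _) ?_ k
    have := nu_neg Λ hζg
    rwa [neg_sub] at this
  have h3 : (((((g : ZMod ℓ).val : ℕ) : ℤ) ^ k : ℤ) : Qb) - (a : Qb) ∈ Λ.nonunits := by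
    refine intCast_sub_nu hΛ ?_
    rw [hau]
    push_cast
    rw [ZMod.natCast_zmod_val]
  push_cast at h2 h3 ⊢
  have h4 := nu_add Λ h2 h3
  rwa [sub_add_sub_cancel] at h4

/-- T3: the Teichmüller character. -/
theorem exists_teich [Fact ℓ.Prime] (hΛ : Λ.LiesOverPrime ℓ) :
    ∃ ω : DirichletCharacter Qb ℓ, ∀ a : ℤ, ω (a : ZMod ℓ) - (a : Qb) ∈ Λ.nonunits := by
  have hℓ : ℓ.Prime := Fact.out
  obtain ⟨w, hw⟩ := exists_teich_units hΛ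
  refine ⟨MulChar.ofUnitHom w, ?_⟩
  intro a
  by_cases ha : (ℓ : ℤ) ∣ a
  · have h0 : ((a : ℤ) : ZMod ℓ) = 0 := (ZMod.intCast_zmod_eq_zero_iff_dvd a ℓ).2 ha
    rw [h0, MulChar.map_zero, zero_sub]
    exact nu_neg Λ ((intCast_nu_iff hℓ hΛ a).2 ha)
  · have hne : ((a : ℤ) : ZMod ℓ) ≠ 0 := by
      rw [Ne, ZMod.intCast_zmod_eq_zero_iff_dvd]
      exact ha
    have h1 : ((a : ℤ) : ZMod ℓ) = ((Units.mk0 _ hne : (ZMod ℓ)ˣ) : ZMod ℓ) := rfl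
    have h2 := hw (Units.mk0 _ hne) a h1
    rw [h1, MulChar.ofUnitHom_coe]
    exact h2

end Fermat.Agent.S48.Eis.Ar
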